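/-
RIBET row 38, WALL-p, (S4) = `H884.EisSlopeStatement`: a WEAKER output leaf for the I6 package and
the corresponding PROVED glue (helper98).

`H704.Eis.EisOutStatement` asks for a modular unit `D` with `UnitData`, which contains the field

    slope : ∀ n : ℤ, FinGenOff p M' A (D ^ n) → (p : ℤ) ∣ n

("the slopes of `D` at the supersingular points are not all divisible by `p`").  This is a deep
geometric statement (the thickness of the supersingular nodes is prime to `p`; equivalently the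
Hasse invariant has zeros of order prime to `p` on `X₀(M')`), and it is NOT needed:

  if `f · D ^ i` has slopes `0` off the cusps, then so have
      `T_ℓ f · (T_ℓ D) ^ i  ∼  f ^ a_ℓ · D ^ ((ℓ + 1) i)`     (Hecke for functions, KUMEIG)  and
      `(f · D ^ i) ^ (ℓ + 1) = f ^ (ℓ + 1) · D ^ ((ℓ + 1) i)`,
  hence so has the quotient `f ^ (a_ℓ - (ℓ + 1))`, a Kummer generator of `T_ℓ x - (ℓ + 1) x`.

So here:

* `UnitHecke p M' A D`    : `UnitData` WITHOUT the field `slope`;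
* `EisOutWeakStatement`   : `EisOutStatement` with `UnitHecke` instead of `UnitData`, and with the
                            additional HYPOTHESIS `NonEisAway p a` (free in the glue, by cases);
* `eisOutWeak_of_eisOut`  : `EisOutStatement → EisOutWeakStatement`;
* **`eisSlope_of_weak`**  : the leaves of `H704.Eis.eisSlope_of`, with `EisOutWeakStatement`
                            instead of `EisOutStatement`, give `H884.EisSlopeStatement`.
-/
import Fermat.Agent.Ribet.H704.EisSpec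
import Fermat.Agent.Ribet.H944.Closed

set_option autoImplicit false
set_option linter.style.haveILetI false
set_option synthInstance.maxHeartbeats 400000
set_option maxHeartbeats 1000000

noncomputable section

namespace Fermat.Agent.Ribet.H98.Eis

open AlgebraicCurve ModularCurve HahnSeries
open Fermat.Agent.S24 Fermat.Agent.A2.H708 Fermat.Agent.A2.H528
open Fermat.Agent.Ribet.Spec Fermat.Agent.Ribet.H944.Wall Fermat.Agent.Ribet.H884
open Fermat.Agent.Ribet.H944.I2 Fermat.Agent.S37.H697 Fermat.Agent.Ribet.H704.Eis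

/-! ## The weaker leaf -/

section Defs

variable (p M' : ℕ) [NeZero (p * M')] (A : ValuationSubring Kbar)

/-- What the glue really uses of the modular unit `D`: `T_ℓ D / D ^ (ℓ + 1)` has slopes `0`
off the cusps. -/
structure UnitHecke (D : FF (p * M')) : Prop where
  ne_zero : D ≠ 0
  hecke : ∀ (ℓ : ℕ) [NeZero ℓ], ℓ.Prime → ¬ ℓ ∣ p * M' →
    FinGenOff p M' A (hNorm (p * M') ℓ D * (D ^ (ℓ + 1))⁻¹)

theorem UnitHecke.of_unitData {D : FF (p * M')} (h : UnitData p M' A D) :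
    UnitHecke p M' A D :=
  ⟨h.ne_zero, fun ℓ _ hℓ hℓN => h.hecke ℓ hℓ hℓN⟩

end Defs

/-- **EIS-OUT, weak form**: under the hypotheses of (S4), INCLUDING the non-Eisenstein
hypothesis, the class `x` has a Kummer generator `f` such that `f · D ^ i` has slopes `0` away
from the cusps, for some `i : ℤ` and some `D` with `T_ℓ D ∼ D ^ (ℓ + 1)`. -/
def EisOutWeakStatement : Prop :=
  ∀ (p M' : ℕ) [NeZero M'] [NeZero p] [NeZero (p * M')], p.Prime → 5 ≤ p → ¬ p ∣ M' →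
    ∀ A : ValuationSubring Kbar, A.LiesOverPrime p →
    ∀ (S : Finset ℕ) (a : ℕ → ℤ) (x t : JZero (p * M')),
      NonEisAway p a →
      IsNewTors p M' x → EigenAt (p * M') S a x →
      IsNewTors p M' t → EigenAt (p * M') S a t →
      (∀ σ ∈ A.inertiaSubgroupIn ℚ, ∀ c : ℕ, CycloAt p σ c → σ • t = c • t) →
      (∀ σ ∈ A.inertiaSubgroupIn ℚ, ∃ n : ℕ, σ • x = x + n • t) →
      (∀ σ : GQ, PeuFixes A p σ → σ • x = x) →
      ∃ (f D : FF (p * M')) (i : ℤ), IsKummerGen (p * M') p f x ∧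
        UnitHecke p M' A D ∧ FinGenOff p M' A (f * D ^ i)

/-! ## Auxiliary algebra -/

section Aux

variable {N : ℕ} [NeZero N] {p : ℕ}

theorem isKummerGen_pow98 {f : FF N} {x : JZero N} (h : IsKummerGen N p f x) (m : ℕ) :
    IsKummerGen N p (f ^ m) (m • x) := by
  induction m with
  | zero =>
    rw [pow_zero, zero_nsmul]
    exact isKummerGen_one N p
  | succ m ih =>
    rw [pow_succ, succ_nsmul]
    exact isKummerGen_mul N p ih h

theorem isKummerGen_zpow98 {f : FF N} {x : JZero N} (h : IsKummerGen N p f x) (z : ℤ) :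
    IsKummerGen N p (f ^ z) (z • x) := by
  rcases z with m | m
  · have := isKummerGen_pow98 h m
    simpa using this
  · have := isKummerGen_inv N p (isKummerGen_pow98 h (m + 1))
    rw [zpow_negSucc, negSucc_zsmul]
    exact this

end Aux

section One

variable {p M' : ℕ} [NeZero (p * M')] {A : ValuationSubring Kbar}

theorem finGenOff_one98 : FinGenOff p M' A (1 : FF (p * M')) := by
  have h := finGenOff_const (p := p) (M' := M') (A := A) (one_ne_zero : (1 : Kbar) ≠ 0)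
  rwa [map_one] at h

/-- The trivial unit `D = 1`. -/
theorem unitHecke_one98 : UnitHecke p M' A (1 : FF (p * M')) := by
  refine ⟨one_ne_zero, fun ℓ _ _ _ => ?_⟩
  have h1 : hNorm (p * M') ℓ (1 : FF (p * M')) = 1 :=
    Fermat.Agent.S29.H395.heckeNorm_one _ _
  rw [h1, one_pow, inv_one, mul_one]
  exact finGenOff_one98

end One

/-- The weak leaf follows from `H704.Eis.EisOutStatement`. -/
theorem eisOutWeak_of_eisOut (h : EisOutStatement) : EisOutWeakStatement := by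
  intro p M' _ _ _ hp hp5 hpM A hA S a x t _ hx hex ht het hχ hsh hpeu
  obtain ⟨f, hfK, hcase⟩ := h p M' hp hp5 hpM A hA S a x t hx hex ht het hχ hsh hpeu
  rcases hcase with hf | ⟨D, i, hD, hfD⟩
  · refine ⟨f, 1, 0, hfK, unitHecke_one98, ?_⟩
    rwa [zpow_zero, mul_one]
  · exact ⟨f, D, i, hfK, UnitHecke.of_unitData p M' A hD, hfD⟩

/-! ## The glue -/

section Glue

variable {p M' : ℕ} [NeZero (p * M')] {A : ValuationSubring Kbar}

/-- **Key step.**  If `f · D ^ i` has slopes `0` off the cusps, `T_ℓ D ∼ D ^ (ℓ + 1)` and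
`T_ℓ f = c · f ^ a · G ^ p`, then `f ^ a · (f ^ (ℓ + 1))⁻¹` has slopes `0` off the cusps. -/
theorem finGenOff_eigen_quot [NeZero M'] [NeZero p] (hEx : RedExistsStatement)
    (hRF : RedFieldStatement) (hRes : ResFieldStatement) (hFH : FrickeHeckeStatement)
    (hHR : HeckeRedStatement) (hKO : KnormOffStatement) (hp : p.Prime) (hpM : ¬ p ∣ M')
    (hA : A.LiesOverPrime p) {ℓ : ℕ} [NeZero ℓ] (hℓ : ℓ.Prime) (hℓN : ¬ ℓ ∣ p * M')
    {f D : FF (p * M')} {i a : ℤ} (hf0 : f ≠ 0) (hD : UnitHecke p M' A D)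
    (hfD : FinGenOff p M' A (f * D ^ i))
    (hK : KummerEigen (p * M') p ℓ a f) :
    FinGenOff p M' A (f ^ a * (f ^ (ℓ + 1))⁻¹) := by
  have hD0 : D ≠ 0 := hD.ne_zero
  obtain ⟨c, G, hc, hG, hX⟩ := hK
  set X := hNorm (p * M') ℓ f with hXdef
  set Y := hNorm (p * M') ℓ D with hYdef
  set c' : FF (p * M') := algebraMap Kbar (FF (p * M')) c with hc'def
  have hc'0 : c' ≠ 0 := by
    rw [hc'def]
    exact (map_ne_zero (algebraMap Kbar (FF (p * M')))).mpr hc
  -- (a) Hecke for functions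
  have ha : FinGenOff p M' A (X * Y ^ i) := by
    have h := finGenOff_hNorm hFH hHR hRes hKO hp hpM hA hℓ hℓN hfD
    have e : hNorm (p * M') ℓ (f * D ^ i) = X * Y ^ i := by
      rw [hXdef, hYdef, ← hNorm_zpow' _ _ hD0]
      exact Fermat.Agent.S29.H395.heckeNorm_mul _ _ _ _
    rwa [e] at h
  have hYD := hD.hecke ℓ hℓ hℓN
  have hY0 : Y ≠ 0 := by
    obtain ⟨r₁, -, h1, -⟩ := hYD
    have := (isRedInf_ne_zero _ A h1).1
    exact left_ne_zero_of_mul this
  have hfa0 : f ^ a ≠ 0 := zpow_ne_zero _ hf0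
  have hGp0 : G ^ p ≠ 0 := pow_ne_zero _ hG
  have hYi0 : Y ^ i ≠ 0 := zpow_ne_zero _ hY0
  have hDl0 : D ^ (ℓ + 1) ≠ 0 := pow_ne_zero _ hD0
  have hDli0 : (D ^ (ℓ + 1)) ^ i ≠ 0 := zpow_ne_zero _ hDl0
  have hDi0 : D ^ i ≠ 0 := zpow_ne_zero _ hD0
  have hfl0 : f ^ (ℓ + 1) ≠ 0 := pow_ne_zero _ hf0
  -- (b) `f ^ a · Y ^ i`
  have hb : FinGenOff p M' A (f ^ a * Y ^ i) := by
    have e : f ^ a * Y ^ i = X * Y ^ i * c'⁻¹ * (G ^ p)⁻¹ := by
      rw [hX]
      field_simp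
    rw [e]
    exact finGenOff_mul (finGenOff_mul ha (finGenOff_inv (finGenOff_const hc)))
      (finGenOff_inv (finGenOff_pow_p hEx hRF hp hpM hA hG))
  -- (e) `Y ^ i / (D ^ (ℓ + 1)) ^ i`
  have he : FinGenOff p M' A (Y ^ i * ((D ^ (ℓ + 1)) ^ i)⁻¹) := by
    have h := finGenOff_zpow hYD i
    rwa [mul_zpow, inv_zpow] at h
  -- (h) `f ^ a · (D ^ (ℓ + 1)) ^ i`
  have hh : FinGenOff p M' A (f ^ a * (D ^ (ℓ + 1)) ^ i) := by
    have e : f ^ a * (D ^ (ℓ + 1)) ^ i =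
        f ^ a * Y ^ i * (Y ^ i * ((D ^ (ℓ + 1)) ^ i)⁻¹)⁻¹ := by
      field_simp
    rw [e]
    exact finGenOff_mul hb (finGenOff_inv he)
  -- (5) `(f · D ^ i) ^ (ℓ + 1)`
  have h5 : FinGenOff p M' A ((f * D ^ i) ^ ((ℓ + 1 : ℕ) : ℤ)) := finGenOff_zpow hfD _
  -- the two `D`-powers agree
  have hDD : (D ^ (ℓ + 1)) ^ i = (D ^ i) ^ (ℓ + 1) := by
    rw [← zpow_natCast D (ℓ + 1), ← zpow_mul, ← zpow_natCast (D ^ i) (ℓ + 1), ← zpow_mul,
      mul_comm ((ℓ + 1 : ℕ) : ℤ) i]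
  -- (6) the quotient
  have e6 : f ^ a * (f ^ (ℓ + 1))⁻¹ =
      f ^ a * (D ^ (ℓ + 1)) ^ i * ((f * D ^ i) ^ ((ℓ + 1 : ℕ) : ℤ))⁻¹ := by
    rw [zpow_natCast, mul_pow, hDD]
    have h1 : (D ^ i) ^ (ℓ + 1) ≠ 0 := pow_ne_zero _ hDi0
    field_simp
  rw [e6]
  exact finGenOff_mul hh (finGenOff_inv h5)

/-- **(S4) = EIS from its leaves, weak form of EIS-OUT** (no slope condition on the modular
unit; the non-Eisenstein hypothesis is available to the leaf). -/
theorem eisSlope_of_weak (hEx : RedExistsStatement) (hRF : RedFieldStatement)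
    (hRes : ResFieldStatement) (hK : KumEigStatement) (hFH : FrickeHeckeStatement)
    (hHR : HeckeRedStatement) (hKO : KnormOffStatement) (hOF : OffFinStatement)
    (hEO : EisOutWeakStatement) : EisSlopeStatement := by
  intro p M' _ _ _ hp hp5 hpM A hA S a x t hx hex ht het hχ hsh hpeu
  by_cases hNE : NonEisAway p a
  · -- the non-Eisenstein case: use the leaf
    obtain ⟨f, D, i, hfK, hD, hfD⟩ :=
      hEO p M' hp hp5 hpM A hA S a x t hNE hx hex ht het hχ hsh hpeu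
    have hf0 : f ≠ 0 := hfK.1
    refine ⟨S ∪ (p * M').primeFactors, fun ℓ hℓ => ?_⟩
    have hℓS : (ℓ : ℕ) ∉ S := fun h => hℓ (Finset.mem_union_left _ h)
    have hℓN : ¬ (ℓ : ℕ) ∣ p * M' := by
      intro hd
      exact hℓ (Finset.mem_union_right _
        (Nat.mem_primeFactors.mpr ⟨ℓ.2, hd, NeZero.ne (p * M')⟩))
    haveI : NeZero (ℓ : ℕ) := ⟨ℓ.2.ne_zero⟩
    have hKE : KummerEigen (p * M') p (ℓ : ℕ) (a ℓ) f :=
      hK (p * M') p hp.ne_zero S a x f hfK hex (ℓ : ℕ) ℓ.2 hℓS hℓN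
    have hq : FinGenOff p M' A (f ^ (a ℓ) * (f ^ ((ℓ : ℕ) + 1))⁻¹) :=
      finGenOff_eigen_quot hEx hRF hRes hFH hHR hKO hp hpM hA ℓ.2 hℓN hf0 hD hfD hKE
    have hgK : IsKummerGen (p * M') p (f ^ (a ℓ) * (f ^ ((ℓ : ℕ) + 1))⁻¹)
        (a ℓ • x - ((ℓ : ℕ) + 1) • x) := by
      have h1 := isKummerGen_zpow98 hfK (a ℓ)
      have h2 := isKummerGen_inv _ p (isKummerGen_pow98 hfK ((ℓ : ℕ) + 1))
      have h3 := isKummerGen_mul _ p h1 h2
      rwa [← sub_eq_add_neg] at h3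
    rw [hex ℓ hℓS]
    exact AddSubgroup.subset_closure ⟨_, hgK, hOF p M' hp hpM A hA _ _ hgK hq⟩
  · -- the Eisenstein case: `T_ℓ x - (ℓ + 1) x = 0` off a finite set
    have hNE' : ∃ S₀ : Finset ℕ, ∀ ℓ : ℕ, ℓ.Prime → ℓ ∉ S₀ → (p : ℤ) ∣ a ℓ - (ℓ + 1) := by
      by_contra hcon
      apply hNE
      intro S₀
      by_contra hS₀
      apply hcon
      refine ⟨S₀, fun ℓ hℓ hℓS => ?_⟩
      by_contra hnd
      exact hS₀ ⟨ℓ, hℓ, hℓS, hnd⟩
    obtain ⟨S₀, hS₀⟩ := hNE'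
    refine ⟨S ∪ S₀, fun ℓ hℓ => ?_⟩
    have hℓS : (ℓ : ℕ) ∉ S := fun h => hℓ (Finset.mem_union_left _ h)
    have hℓS₀ : (ℓ : ℕ) ∉ S₀ := fun h => hℓ (Finset.mem_union_right _ h)
    obtain ⟨q, hq⟩ := hS₀ (ℓ : ℕ) ℓ.2 hℓS₀
    rw [hex ℓ hℓS]
    have e : a ℓ • x - ((ℓ : ℕ) + 1) • x = (a ℓ - (((ℓ : ℕ) : ℤ) + 1)) • x := by
      have h3 : (((ℓ : ℕ) : ℤ) + 1) = ((((ℓ : ℕ) + 1 : ℕ)) : ℤ) := by push_cast; ring
      rw [sub_smul, h3, natCast_zsmul]
    have e3 : (a ℓ - (((ℓ : ℕ) : ℤ) + 1)) • x = 0 := by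
      rw [hq, mul_comm (p : ℤ) q, mul_smul, natCast_zsmul, hx.1, smul_zero]
    rw [e, e3]
    exact (finPart p M' A).zero_mem

end Glue

end Fermat.Agent.Ribet.H98.Eis

end
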